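/-
GATE-Z (S15) / [MOD-alpha], INSTANCE at the auxiliary levels, part 1 (helper16): the `q`-adic place
of an intermediate field `E` of `k((q)) / k` containing an element of `q`-order `-1`
(in use: `E = FresBar N A`, the Gauss residue field of `ℚ̄(X₀(N))`, with `j~ = q⁻¹ + …`).

* `qValE E`      : the `q`-adic order as `IntVal k E` (S24);
* `qPlaceE E hq` : its place; **`qPlaceE_ord : (qPlaceE E hq).ord g = (g : k((q))).order`**.
-/
import Mathlib
import Fermat.Agent.S24.IntVal

set_option autoImplicit false
set_option linter.unusedSectionVars false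

noncomputable section

open HahnSeries AlgebraicCurve

namespace Fermat.Agent.GZ.Mod.Inst.LevelDP

open Fermat.Agent.S24

variable {k : Type*} [Field k] (E : IntermediateField k (LaurentSeries k))

theorem coe_ne_zero_of_ne_zero {g : E} (hg : g ≠ 0) : (g : LaurentSeries k) ≠ 0 :=
  fun h => hg (Subtype.ext h)

/-- the `q`-adic valuation data on `E` -/
def qValE : IntVal k E where
  toFun g := (g : LaurentSeries k).order
  map_mul' {f g} hf hg := by
    show ((f * g : E) : LaurentSeries k).order = _
    rw [MulMemClass.coe_mul]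
    exact HahnSeries.order_mul (coe_ne_zero_of_ne_zero E hf) (coe_ne_zero_of_ne_zero E hg)
  map_add' {f g} hf hg hfg := by
    show _ ≤ ((f + g : E) : LaurentSeries k).order
    rw [AddMemClass.coe_add]
    exact HahnSeries.min_order_le_order_add (by
      rw [← AddMemClass.coe_add]
      exact coe_ne_zero_of_ne_zero E hfg)
  map_algebraMap' c hc := by
    show ((algebraMap k E c : E) : LaurentSeries k).order = 0
    have h : ((algebraMap k E c : E) : LaurentSeries k) = algebraMap k (LaurentSeries k) c := rfl
    have h1 : algebraMap k (PowerSeries k) c = PowerSeries.C c := by simp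
    have h2 : algebraMap k (LaurentSeries k) c = HahnSeries.single 0 c := by
      rw [HahnSeries.algebraMap_apply', h1, HahnSeries.ofPowerSeries_C]; rfl
    rw [h, h2]
    exact HahnSeries.order_single hc

theorem qValE_apply (g : E) : qValE E g = (g : LaurentSeries k).order := rfl

theorem qValE_isNontrivial (hq : ∃ f : E, (f : LaurentSeries k).order = -1) :
    (qValE E).IsNontrivial := by
  obtain ⟨f, hf⟩ := hq
  refine ⟨f, ?_, ?_⟩
  · rintro rfl
    rw [ZeroMemClass.coe_zero, HahnSeries.order_zero] at hf
    omega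
  · rw [qValE_apply, hf]
    omega

/-- the place `q = 0` of `E` -/
def qPlaceE (hq : ∃ f : E, (f : LaurentSeries k).order = -1) : Place k E :=
  IntVal.placeOf (qValE_isNontrivial E hq)

theorem mult_qValE_eq_one (hq : ∃ f : E, (f : LaurentSeries k).order = -1) :
    IntVal.mult (qValE_isNontrivial E hq) = 1 := by
  obtain ⟨f, hf⟩ := hq
  have hf0 : f ≠ 0 := by
    rintro rfl
    rw [ZeroMemClass.coe_zero, HahnSeries.order_zero] at hf
    omega
  have h1 := IntVal.eq_mult_mul_ord (qValE_isNontrivial E ⟨f, hf⟩) hf0
  rw [qValE_apply, hf] at h1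
  have hpos := IntVal.mult_pos (qValE_isNontrivial E ⟨f, hf⟩)
  have hdvd : IntVal.mult (qValE_isNontrivial E ⟨f, hf⟩) ∣ 1 :=
    ⟨-(qPlaceE E ⟨f, hf⟩).ord f, by
      have : (qPlaceE E ⟨f, hf⟩).ord f =
        (IntVal.placeOf (qValE_isNontrivial E ⟨f, hf⟩)).ord f := rfl
      rw [this]; linarith⟩
  exact Int.eq_one_of_dvd_one hpos.le hdvd

/-- **`ord` at the `q`-place is the `q`-adic order** -/
theorem qPlaceE_ord (hq : ∃ f : E, (f : LaurentSeries k).order = -1) (g : E) :
    (qPlaceE E hq).ord g = (g : LaurentSeries k).order := by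
  rcases eq_or_ne g 0 with rfl | hg
  · simp
  · have h1 := IntVal.eq_mult_mul_ord (qValE_isNontrivial E hq) hg
    rw [mult_qValE_eq_one E hq, one_mul, qValE_apply] at h1
    exact h1.symm

end Fermat.Agent.GZ.Mod.Inst.LevelDP
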