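/-
GATE-Z (S15) / [MOD-alpha], INSTANCE at the auxiliary levels, part 2 (helper16): **the pole count**.

`F / K` a function field with principal divisors, all places of degree one, `y` transcendental:
finitely many distinct places `c i` with `ord_{c i} y = - n i` and `Σ n i = [F : K(y)]` carry ALL
the poles of `y`.
-/
import Mathlib
import Fermat.Agent.GJ.FF.PrincipalGen
import Fermat.Agent.RR_helper45.Finite

set_option autoImplicit false
set_option linter.unusedSectionVars false

noncomputable section

open AlgebraicCurve IntermediateField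

namespace Fermat.Agent.GZ.Mod.Inst.LevelDP

open Fermat.Agent.S24 Fermat.Agent.RRh45

variable {K F : Type*} [Field K] [Field F] [Algebra K F]

/-- **the pole count**: places carrying the full pole degree carry all the poles. -/
theorem exists_eq_of_ord_neg [HasPrincipalDivisors K F] (x : F) [IsGen K x]
    (hdeg : ∀ v : Place K F, v.deg = 1) {y : F} (hy : Transcendental K y)
    {ι : Type*} [Fintype ι] (c : ι → Place K F) (hc : Function.Injective c) (n : ι → ℕ)
    (hord : ∀ i, (c i).ord y = -(n i : ℤ))
    (hsum : ∑ i, n i = Module.finrank K⟮y⟯ F) (P : Place K F) (hP : P.ord y < 0) :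
    ∃ i, P = c i := by
  classical
  by_contra hne
  rw [not_exists] at hne
  have hy0 : y ≠ 0 := fun h => hy (h ▸ isAlgebraic_zero)
  obtain ⟨D, hD, -⟩ := (inferInstance : HasPrincipalDivisors K F).exists_divisor y hy0
  set E : Divisor K F := (-D) ⊔ 0 with hE
  have hEv : ∀ v : Place K F, E v = max (-(v.ord y)) 0 := by
    intro v
    rw [hE, Finsupp.sup_apply, Finsupp.neg_apply, hD v]
    rfl
  have hdegE : Divisor.degree E = (Module.finrank K⟮y⟯ F : ℤ) :=
    Fermat.Agent.GJ.FF.PrincipalOf.degree_eq_finrank_of_poles x hy E hEv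
  set G : Divisor K F := (∑ i, Finsupp.single (c i) (n i : ℤ)) + Finsupp.single P (E P) with hG
  have hGE : G ≤ E := by
    rw [Finsupp.le_def]
    intro v
    rw [hG, Finsupp.add_apply, Finsupp.finsetSum_apply]
    by_cases hvP : P = v
    · subst hvP
      rw [Finsupp.single_apply, if_pos rfl]
      have : ∑ i, (Finsupp.single (c i) (n i : ℤ)) P = 0 :=
        Finset.sum_eq_zero fun i _ => by
          rw [Finsupp.single_apply, if_neg (Ne.symm (hne i))]
      rw [this, zero_add]
    · rw [Finsupp.single_apply, if_neg hvP, add_zero]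
      by_cases hv : ∃ i₀, c i₀ = v
      · obtain ⟨i₀, rfl⟩ := hv
        rw [Finset.sum_eq_single i₀ (fun i _ hi => by
          rw [Finsupp.single_apply, if_neg (fun h => hi (hc h))])
          (fun h => absurd (Finset.mem_univ _) h), Finsupp.single_apply, if_pos rfl, hEv, hord]
        simp
      · rw [not_exists] at hv
        rw [Finset.sum_eq_zero fun i _ => by rw [Finsupp.single_apply, if_neg (hv i)], hEv]
        exact le_max_right _ _
  have hsub : 0 ≤ Divisor.degree (E - G) := degree_nonneg_of_nonneg (sub_nonneg.2 hGE)
  have hdegG : Divisor.degree G = (∑ i, (n i : ℤ)) + E P := by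
    rw [hG, map_add, map_sum, Divisor.degree_single, hdeg, Nat.cast_one, mul_one]
    congr 1
    exact Finset.sum_congr rfl fun i _ => by
      rw [Divisor.degree_single, hdeg, Nat.cast_one, mul_one]
  rw [map_sub, hdegE, hdegG, ← hsum] at hsub
  push_cast at hsub
  have hEP : E P ≤ 0 := by linarith
  rw [hEv] at hEP
  have := le_max_left (-(P.ord y)) 0
  omega

end Fermat.Agent.GZ.Mod.Inst.LevelDP
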