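/-
GATE-Z (S15) / [MOD-alpha], INSTANCE at the auxiliary levels, part 3 (helper16): **the generic fibre
at level `N = d p`** (`d ≠ p` primes): the Klein four-group of Atkin–Lehner automorphisms, the four
cusps `W_i • ∞`, the four functions `j(q^e)`, `e ∣ d p`, and their pole-order matrix.

* `Lvl d p`                 : the hypotheses (`d`, `p` distinct primes);
* `idx d p i`, `i : Bool × Bool` : the divisor `d^{i.1} p^{i.2}` of `d p`; `idx_surj`;
* `W L i`                   : `W_d^{i.1} W_p^{i.2}`; `W_gen : W_i j(q^{e_l}) = j(q^{e_{i+l}})`;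
                              `W_mul : W_i W_l = W_{i+l}`;
* `cusp L i := W_i • ∞`     ; `ord_cusp_gen : ord_{c_i} j(q^{e_l}) = - e_{i+l}`; `cusp_injective`;
* **`eq_cusp_of_ord_gen_neg`** : the poles of `j(q^{e_l})` are among the four cusps
  (pole count `(1+d)(1+p) = ψ(d p) = [F_N : ℚ̄(j)]`);
* `nMat_pos`, `nMat_dominant` (`1 + d + p < d p`).
-/
import Mathlib
import Fermat.Agent.GZ.Unit.Places
import Fermat.Agent.GZ.Mod.Inst.LevelDP.PoleCount
import Fermat.Agent.GK.AL.SecondVal
import Fermat.Agent.S24_helper62.CuspFibre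
import Fermat.Agent.S20_helper27.Prim
import Fermat.Agent.RR.ModularBar

set_option autoImplicit false
set_option linter.unusedSectionVars false

noncomputable section

open AlgebraicCurve ModularCurve IntermediateField

namespace Fermat.Agent.GZ.Mod.Inst.LevelDP

open Fermat.Agent.GR.W.RatRep Fermat.Agent.GK.AL Fermat.Agent.S24 Fermat.Agent.S28
  Fermat.Agent.S24_helper62 Fermat.Agent.GZ.UnitN

local notation "Qb" => AlgebraicClosure ℚ

/-- the hypotheses on the auxiliary level `N = d p` -/
structure Lvl (d p : ℕ) : Prop where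
  hd : d.Prime
  hp : p.Prime
  hne : d ≠ p

namespace Lvl

variable {d p : ℕ} (L : Lvl d p)

include L

theorem not_d_dvd_p : ¬ d ∣ p := fun h => L.hne ((Nat.prime_dvd_prime_iff_eq L.hd L.hp).mp h)

theorem not_p_dvd_d : ¬ p ∣ d := fun h => L.hne ((Nat.prime_dvd_prime_iff_eq L.hp L.hd).mp h).symm

theorem exactDvd_d : ExactDvd d (d * p) :=
  ⟨L.hd, dvd_mul_right d p, fun h => by
    rw [pow_two] at h
    exact L.not_d_dvd_p ((Nat.mul_dvd_mul_iff_left L.hd.pos).mp h)⟩

theorem exactDvd_p : ExactDvd p (d * p) :=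
  ⟨L.hp, dvd_mul_left p d, fun h => by
    rw [pow_two] at h
    exact L.not_p_dvd_d ((Nat.mul_dvd_mul_iff_right L.hp.pos).mp h)⟩

theorem coprime : Nat.Coprime d p := (Nat.coprime_primes L.hd L.hp).mpr L.hne

end Lvl

/-! ### the index set -/

/-- `d^{i.1} p^{i.2}` -/
def idxVal (d p : ℕ) (i : Bool × Bool) : ℕ := (if i.1 then d else 1) * (if i.2 then p else 1)

theorem idxVal_dvd (d p : ℕ) (i : Bool × Bool) : idxVal d p i ∣ d * p := by
  unfold idxVal
  apply mul_dvd_mul <;> split_ifs <;> simp

/-- the divisor `d^{i.1} p^{i.2}` of `d p` -/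
def idx (d p : ℕ) (i : Bool × Bool) : DivIdx (d * p) := ⟨idxVal d p i, idxVal_dvd d p i⟩

@[simp] theorem idx_val (d p : ℕ) (i : Bool × Bool) : (idx d p i).1 = idxVal d p i := rfl

/-- componentwise `xor` -/
def bx (i l : Bool × Bool) : Bool × Bool := (xor i.1 l.1, xor i.2 l.2)

theorem bx_self (i : Bool × Bool) : bx i i = (false, false) := by
  rcases i with ⟨a, b⟩; cases a <;> cases b <;> rfl

theorem bx_zero (i : Bool × Bool) : bx i (false, false) = i := by
  rcases i with ⟨a, b⟩; cases a <;> cases b <;> rfl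

theorem zero_bx (i : Bool × Bool) : bx (false, false) i = i := by
  rcases i with ⟨a, b⟩; cases a <;> cases b <;> rfl

theorem bx_assoc (i l m : Bool × Bool) : bx (bx i l) m = bx i (bx l m) := by
  rcases i with ⟨a, b⟩; rcases l with ⟨a', b'⟩; rcases m with ⟨a'', b''⟩
  cases a <;> cases b <;> cases a' <;> cases b' <;> cases a'' <;> cases b'' <;> rfl

theorem bx_comm (i l : Bool × Bool) : bx i l = bx l i := by
  rcases i with ⟨a, b⟩; rcases l with ⟨a', b'⟩
  cases a <;> cases b <;> cases a' <;> cases b' <;> rfl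

section Idx

variable {d p : ℕ} (L : Lvl d p)

include L

theorem idxVal_pos (i : Bool × Bool) : 0 < idxVal d p i := by
  unfold idxVal
  have := L.hd.pos
  have := L.hp.pos
  apply Nat.mul_pos <;> split_ifs <;> omega

theorem idxVal_injective : Function.Injective (idxVal d p) := by
  have h1 := L.hd.two_le
  have h2 := L.hp.two_le
  have h3 := L.hne
  have h4 : 2 * p ≤ d * p := Nat.mul_le_mul_right p h1
  have h5 : 2 * d ≤ d * p := by rw [mul_comm d p]; exact Nat.mul_le_mul_right d h2
  rintro ⟨a, b⟩ ⟨a', b'⟩ h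
  unfold idxVal at h
  cases a <;> cases b <;> cases a' <;> cases b' <;> simp at h <;> first | rfl | omega

theorem idx_surj (e : DivIdx (d * p)) : ∃ m, idx d p m = e := by
  obtain ⟨k₁, k₂, hk₁, hk₂, hk⟩ := (Nat.dvd_mul).mp e.2
  rcases (Nat.dvd_prime L.hd).mp hk₁ with h1 | h1 <;>
    rcases (Nat.dvd_prime L.hp).mp hk₂ with h2 | h2
  · exact ⟨(false, false), Subtype.ext (by rw [← hk, h1, h2]; simp [idxVal])⟩
  · exact ⟨(false, true), Subtype.ext (by rw [← hk, h1, h2]; simp [idxVal])⟩
  · exact ⟨(true, false), Subtype.ext (by rw [← hk, h1, h2]; simp [idxVal])⟩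
  · exact ⟨(true, true), Subtype.ext (by rw [← hk, h1, h2]; simp [idxVal])⟩

theorem swapIdx_d (i : Bool × Bool) :
    swapIdx L.exactDvd_d (idx d p i) = idx d p (!i.1, i.2) := by
  apply Subtype.ext
  rw [swapIdx_apply]
  rcases i with ⟨a, b⟩
  cases a
  · have hnd : ¬ d ∣ (idx d p (false, b)).1 := by
      rw [idx_val]
      unfold idxVal
      cases b
      · simpa using L.hd.ne_one
      · simpa using L.not_d_dvd_p
    rw [swapFun_of_not_dvd _ hnd]
    cases b <;> simp [idxVal]
  · have hv : (idx d p (true, b)).1 = d * (if b then p else 1) := by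
      rw [idx_val]
      unfold idxVal
      simp
    have hdv : d ∣ (idx d p (true, b)).1 := by rw [hv]; exact dvd_mul_right _ _
    rw [swapFun_of_dvd _ hdv, hv, Nat.mul_div_cancel_left _ L.hd.pos]
    simp [idxVal]

theorem swapIdx_p (i : Bool × Bool) :
    swapIdx L.exactDvd_p (idx d p i) = idx d p (i.1, !i.2) := by
  apply Subtype.ext
  rw [swapIdx_apply]
  rcases i with ⟨a, b⟩
  cases b
  · have hnd : ¬ p ∣ (idx d p (a, false)).1 := by
      rw [idx_val]
      unfold idxVal
      cases a
      · simpa using L.hp.ne_one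
      · simpa using L.not_p_dvd_d
    rw [swapFun_of_not_dvd _ hnd]
    cases a <;> simp [idxVal, mul_comm]
  · have hv : (idx d p (a, true)).1 = (if a then d else 1) * p := by
      rw [idx_val]
      unfold idxVal
      simp
    have hdv : p ∣ (idx d p (a, true)).1 := by rw [hv]; exact dvd_mul_left _ _
    rw [swapFun_of_dvd _ hdv, hv, Nat.mul_div_cancel _ L.hp.pos]
    simp [idxVal]

end Idx

/-! ### the four-group of Atkin–Lehner automorphisms -/

section Group

variable {d p : ℕ} [NeZero (d * p)] (L : Lvl d p)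

/-- `W_d^{i.1} W_p^{i.2}` -/
def W (i : Bool × Bool) : FN (d * p) ≃ₐ[Qb] FN (d * p) :=
  (if i.1 then wAut L.exactDvd_d else 1) * (if i.2 then wAut L.exactDvd_p else 1)

/-- **`W_i j(q^{e_l}) = j(q^{e_{i+l}})`** -/
theorem W_gen (i l : Bool × Bool) :
    W L i (gen (d * p) (idx d p l)) = gen (d * p) (idx d p (bx i l)) := by
  rcases i with ⟨a, b⟩
  rcases l with ⟨a', b'⟩
  unfold W
  rw [AlgEquiv.mul_apply]
  cases a <;> cases b <;>
    simp only [if_true, if_false, Bool.false_eq_true, AlgEquiv.one_apply, wAut_gen, swapIdx_d L,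
      swapIdx_p L, bx, Bool.false_bne, Bool.true_bne]

theorem W_zero : W L (false, false) = 1 := by
  unfold W
  simp

/-- **`W_i W_l = W_{i+l}`** -/
theorem W_mul (i l : Bool × Bool) : W L i * W L l = W L (bx i l) := by
  have h : ((W L i * W L l : FN (d * p) ≃ₐ[Qb] FN (d * p)) : FN (d * p) →ₐ[Qb] FN (d * p)) =
      ((W L (bx i l) : FN (d * p) ≃ₐ[Qb] FN (d * p)) : FN (d * p) →ₐ[Qb] FN (d * p)) := by
    apply algHom_ext_gen
    intro e
    obtain ⟨m, rfl⟩ := idx_surj L e
    show (W L i * W L l) (gen (d * p) (idx d p m)) = W L (bx i l) (gen (d * p) (idx d p m))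
    rw [AlgEquiv.mul_apply, W_gen, W_gen, W_gen, bx_assoc]
  exact AlgEquiv.ext fun f => DFunLike.congr_fun h f

theorem W_mul_self (i : Bool × Bool) : W L i * W L i = 1 := by
  rw [W_mul, bx_self, W_zero]

theorem W_W (i : Bool × Bool) (f : FN (d * p)) : W L i (W L i f) = f := by
  have := W_mul_self L i
  have h := DFunLike.congr_fun this f
  rwa [AlgEquiv.mul_apply, AlgEquiv.one_apply] at h

theorem W_smul_smul (i : Bool × Bool) (P : Place Qb (FN (d * p))) : W L i • W L i • P = P := by
  rw [smul_smul, W_mul_self, one_smul]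

/-- `ord_P (W_i f) = ord_{W_i P} f` -/
theorem ord_W (i : Bool × Bool) (P : Place Qb (FN (d * p))) (f : FN (d * p)) :
    P.ord (W L i f) = (W L i • P).ord f := by
  have h := Place.ord_smul (W L i) P (W L i f)
  rw [W_W] at h
  exact h.symm

/-! ### the four cusps -/

/-- the cusp `W_i • ∞` of `X₀(d p)` -/
def cusp (i : Bool × Bool) : Place Qb (FN (d * p)) := W L i • cuspInf (d * p)

theorem ord_cusp (i : Bool × Bool) (f : FN (d * p)) :
    (cusp L i).ord f = (cuspInf (d * p)).ord (W L i f) := by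
  rw [ord_W]
  rfl

theorem W_smul_cusp (i l : Bool × Bool) : W L i • cusp L l = cusp L (bx i l) := by
  unfold cusp
  rw [smul_smul, W_mul]

theorem order_qExpand_jqModC (R : Type*) [CommRing R] [Nontrivial R] (e : ℕ) [NeZero e] :
    (qExpand R e (jqModC R)).order = -(e : ℤ) := by
  have h := (hasLead_jqModC R).qExpand e
  rw [h.order_eq one_ne_zero]
  ring

/-- the pole-order matrix -/
def nMat (d p : ℕ) (i l : Bool × Bool) : ℕ := idxVal d p (bx i l)

/-- **`ord_{c_i} j(q^{e_l}) = - e_{i+l}`** -/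
theorem ord_cusp_gen (i l : Bool × Bool) :
    (cusp L i).ord (gen (d * p) (idx d p l)) = -(nMat d p i l : ℤ) := by
  rw [ord_cusp, W_gen, ord_cuspInf, coe_gen, jFam, order_qExpand_jqModC]
  rfl

theorem cusp_injective : Function.Injective (cusp L) := by
  intro i i' h
  have h1 := ord_cusp_gen L i (false, false)
  rw [h, ord_cusp_gen L i' (false, false)] at h1
  unfold nMat at h1
  rw [bx_zero, bx_zero] at h1
  exact (idxVal_injective L (by exact_mod_cast neg_injective h1)).symm

end Group

/-! ### the poles of the four functions -/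

section Poles

variable {d p : ℕ} [NeZero (d * p)] (L : Lvl d p)

omit [NeZero (d * p)] in
theorem sum_idxVal (d p : ℕ) : ∑ i, idxVal d p i = (d + 1) * (p + 1) := by
  simp only [Fintype.sum_prod_type, Fintype.sum_bool, idxVal, if_true, if_false,
    Bool.false_eq_true]
  ring

theorem gen_zero : gen (d * p) (idx d p (false, false)) = jF (d * p) := by
  rw [jF_eq_gen]
  congr 1

theorem W_jF (i : Bool × Bool) : W L i (jF (d * p)) = gen (d * p) (idx d p i) := by
  rw [← gen_zero, W_gen, bx_zero]

include L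

theorem finrank_jF_eq :
    Module.finrank Qb⟮jF (d * p)⟯ (FN (d * p)) = (d + 1) * (p + 1) := by
  have h1 := Fermat.Agent.S20_helper27.dedekindPsi_prime_pow L.hd (k := 1) one_pos
  have h2 := Fermat.Agent.S20_helper27.dedekindPsi_prime_pow L.hp (k := 1) one_pos
  simp only [pow_one, Nat.sub_self, pow_zero] at h1 h2
  rw [finrank_FN, Fermat.Agent.S20_helper27.dedekindPsi_mul L.coprime, h1, h2]

/-- **a pole of `j` is one of the four cusps** -/
theorem eq_cusp_of_ord_jF_neg (P : Place Qb (FN (d * p))) (hP : P.ord (jF (d * p)) < 0) :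
    ∃ i, P = cusp L i := by
  have := Fermat.Agent.RR.ModularBar.isGen_jF (d * p)
  have := Fermat.Agent.RR.ModularBar.hasPrincipalDivisors (d * p)
  refine exists_eq_of_ord_neg (jF (d * p)) (Fermat.Agent.RR.ModularBar.deg_eq_one (d * p))
    (Fermat.Agent.S24.Degree.transcendental_jF (d * p)) (cusp L) (cusp_injective L) (idxVal d p)
    ?_ ?_ P hP
  · intro i
    rw [← gen_zero, ord_cusp_gen]
    unfold nMat
    rw [bx_zero]
  · rw [sum_idxVal, finrank_jF_eq L]

/-- **a pole of `j(q^{e_l})` is one of the four cusps** -/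
theorem eq_cusp_of_ord_gen_neg (l : Bool × Bool) (P : Place Qb (FN (d * p)))
    (hP : P.ord (gen (d * p) (idx d p l)) < 0) : ∃ i, P = cusp L i := by
  rw [← W_jF L l, ord_W] at hP
  obtain ⟨i, hi⟩ := eq_cusp_of_ord_jF_neg L _ hP
  refine ⟨bx l i, ?_⟩
  rw [← W_smul_cusp, ← hi, W_smul_smul]

omit [NeZero (d * p)] in
theorem nMat_pos (i l : Bool × Bool) : 0 < nMat d p i l := idxVal_pos L _

omit [NeZero (d * p)] in
/-- **every cusp is dominant for some function** (`1 + d + p < d p`) -/
theorem nMat_dominant (hdom : 1 + d + p < d * p) (i : Bool × Bool) :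
    ∃ l, ∑ i' ∈ Finset.univ.erase i, nMat d p i' l < nMat d p i l := by
  refine ⟨bx i (true, true), ?_⟩
  have h1 : nMat d p i (bx i (true, true)) = d * p := by
    unfold nMat
    rw [← bx_assoc, bx_self, zero_bx]
    simp [idxVal]
  have h2 : ∑ i', nMat d p i' (bx i (true, true)) = (d + 1) * (p + 1) := by
    rw [← sum_idxVal]
    unfold nMat
    refine Fintype.sum_bijective (fun i' => bx i' (bx i (true, true))) ?_ _ _ (fun _ => rfl)
    refine Function.Involutive.bijective fun i' => ?_
    rw [bx_assoc, bx_self, bx_zero]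
  have h3 := Finset.add_sum_erase Finset.univ (fun i' => nMat d p i' (bx i (true, true)))
    (Finset.mem_univ i)
  rw [h2, h1] at h3
  rw [h1]
  nlinarith

end Poles

end Fermat.Agent.GZ.Mod.Inst.LevelDP
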