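/-
GATE-Z (S15) / [MOD-alpha], INSTANCE at the auxiliary levels, part 4 (helper16): **the special fibre
at level `N = d p`** over a prime `ℓ' ∤ d p` (INCLUDING `ℓ' = 2, 3`), and the assembly of helper48's
`AlphaFamily.CuspFamily` on J1's datum `redDataBar (d p) A`.

* `W_mem_RwBar_iff`  : the four Atkin–Lehner automorphisms preserve the Gauss valuation ring;
* `Wbar L hℓN A hA i` : the induced automorphisms of the special fibre (`WRed.redAlgEquiv`);
* `Qpl L hℓN A hA i := (W̄_i)⁻¹ • (q = 0)` : the four points of the special fibre;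
  `ord_Qpl_gen : ord_{Q_i} (j~(q^{e_l})) = - e_{i+l}`; `Qpl_injective`;
* **`cuspFamily_bar`** : `CuspFamily S (cusp L) (Qpl …) (fun l => gen (d p) (idx d p l)) (nMat d p)`
  for EVERY `S : SpecMap (redDataBar (d p) A)`.
-/
import Mathlib
import Fermat.Agent.GZ.Mod.AlphaFamily
import Fermat.Agent.GZ.Mod.Inst.WRed
import Fermat.Agent.GZ.Mod.Inst.LevelDP.WFour
import Fermat.Agent.GZ.Mod.Inst.LevelDP.QPlaceRes

set_option autoImplicit false
set_option linter.unusedSectionVars false
set_option synthInstance.maxHeartbeats 400000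
set_option maxHeartbeats 1000000

noncomputable section

open AlgebraicCurve ModularCurve IntermediateField

namespace Fermat.Agent.GZ.Mod.Inst.LevelDP

open Fermat.Agent.GR.W.RatRep Fermat.Agent.GK.AL Fermat.Agent.S24 Fermat.Agent.S28
  Fermat.Agent.S24_helper62 Fermat.Agent.GZ.UnitN Fermat.Agent.GJ.J1 Fermat.Agent.GJ.J1.Val
  Fermat.Agent.GZ.Mod.AlphaSpec Fermat.Agent.GZ.Mod.AlphaFamily

local notation "Qb" => AlgebraicClosure ℚ

section Red

variable {d p : ℕ} [NeZero (d * p)] (L : Lvl d p) {ℓ' : ℕ} [Fact ℓ'.Prime]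
  (hℓN : ¬ ℓ' ∣ d * p) (A : ValuationSubring Qb) (hA : A.LiesOverPrime ℓ')

local notation "𝕜" => IsLocalRing.ResidueField A

include hℓN hA in
/-- **the four Atkin–Lehner automorphisms preserve the Gauss valuation ring** -/
theorem W_mem_RwBar_iff (i : Bool × Bool) (f : FN (d * p)) :
    W L i f ∈ (redDataBar (d * p) A).Rw ↔ f ∈ (redDataBar (d * p) A).Rw := by
  rcases i with ⟨a, b⟩
  unfold W
  rw [AlgEquiv.mul_apply]
  cases a <;> cases b <;>
    simp only [if_true, if_false, Bool.false_eq_true, AlgEquiv.one_apply,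
      wAut_mem_RwBar_iff (d * p) A L.exactDvd_d hℓN hA,
      wAut_mem_RwBar_iff (d * p) A L.exactDvd_p hℓN hA]

/-- the automorphism of the special fibre induced by `W_i` -/
def Wbar (i : Bool × Bool) : FresBar (d * p) A ≃ₐ[𝕜] FresBar (d * p) A :=
  redAlgEquiv (redDataBar (d * p) A) (W L i) (W_mem_RwBar_iff L hℓN A hA i)

theorem Wbar_red (i : Bool × Bool) {t : FN (d * p)} (ht : t ∈ (redDataBar (d * p) A).Rw) :
    Wbar L hℓN A hA i ((redDataBar (d * p) A).red ⟨t, ht⟩) =
      (redDataBar (d * p) A).red ⟨W L i t, (W_mem_RwBar_iff L hℓN A hA i t).mpr ht⟩ :=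
  redAlgEquiv_red (redDataBar (d * p) A) (W L i) (W_mem_RwBar_iff L hℓN A hA i) ht

/-- `ord (j~(q^e)) = - e` on the special fibre -/
theorem order_red_gen (e : DivIdx (d * p)) (he : gen (d * p) e ∈ (redDataBar (d * p) A).Rw) :
    (((redDataBar (d * p) A).red ⟨gen (d * p) e, he⟩ : FresBar (d * p) A) :
      LaurentSeries 𝕜).order = -(e.1 : ℤ) := by
  rw [coe_red1_gen, order_qExpand_jqModC]

theorem red_gen_ne_zero (e : DivIdx (d * p)) (he : gen (d * p) e ∈ (redDataBar (d * p) A).Rw) :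
    (redDataBar (d * p) A).red ⟨gen (d * p) e, he⟩ ≠ 0 := by
  intro h0
  have h1 := order_red_gen A e he
  rw [h0, ZeroMemClass.coe_zero, HahnSeries.order_zero] at h1
  have : (0 : ℤ) < e.1 := by exact_mod_cast Nat.pos_of_ne_zero (NeZero.ne e.1)
  omega

/-- the special fibre has a function with a simple pole at `q = 0` -/
theorem exists_order_neg_one :
    ∃ f : FresBar (d * p) A, (f : LaurentSeries 𝕜).order = -1 :=
  ⟨(redDataBar (d * p) A).red ⟨gen (d * p) (idx d p (false, false)), gen_mem_Rw1 (d * p) A _⟩, by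
    rw [order_red_gen]
    simp [idxVal]⟩

/-- the four points of the special fibre -/
def Qpl (i : Bool × Bool) : Place 𝕜 (FresBar (d * p) A) :=
  (Wbar L hℓN A hA i)⁻¹ • qPlaceE (FresBar (d * p) A) (exists_order_neg_one A)

theorem ord_Qpl (i : Bool × Bool) (g : FresBar (d * p) A) :
    (Qpl L hℓN A hA i).ord g =
      (qPlaceE (FresBar (d * p) A) (exists_order_neg_one A)).ord (Wbar L hℓN A hA i g) := by
  have h := Place.ord_smul (Wbar L hℓN A hA i)⁻¹
    (qPlaceE (FresBar (d * p) A) (exists_order_neg_one A)) (Wbar L hℓN A hA i g)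
  rw [AlgEquiv.aut_inv, AlgEquiv.symm_apply_apply] at h
  exact h

/-- **`ord_{Q_i} (j~(q^{e_l})) = - e_{i+l}`** -/
theorem ord_Qpl_gen (i l : Bool × Bool)
    (hl : gen (d * p) (idx d p l) ∈ (redDataBar (d * p) A).Rw) :
    (Qpl L hℓN A hA i).ord ((redDataBar (d * p) A).red ⟨gen (d * p) (idx d p l), hl⟩) =
      -(nMat d p i l : ℤ) := by
  rw [ord_Qpl, Wbar_red, qPlaceE_ord]
  have h1 : (⟨W L i (gen (d * p) (idx d p l)), (W_mem_RwBar_iff L hℓN A hA i _).mpr hl⟩ :
      (redDataBar (d * p) A).Rw) =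
      ⟨gen (d * p) (idx d p (bx i l)), gen_mem_Rw1 (d * p) A _⟩ := Subtype.ext (W_gen L i l)
  rw [h1, order_red_gen]
  rfl

theorem Qpl_injective : Function.Injective (Qpl L hℓN A hA) := by
  intro i i' h
  have h1 := ord_Qpl_gen L hℓN A hA i (false, false) (gen_mem_Rw1 (d * p) A _)
  rw [h, ord_Qpl_gen L hℓN A hA i' (false, false)] at h1
  unfold nMat at h1
  rw [bx_zero, bx_zero] at h1
  exact (idxVal_injective L (by exact_mod_cast neg_injective h1)).symm

/-- **helper48's `CuspFamily` at level `d p`** on J1's datum `redDataBar (d p) A`, `A` over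
`ℓ' ∤ d p`, for EVERY place map with the fibre formula. -/
theorem cuspFamily_bar (hdom : 1 + d + p < d * p) [DecidableEq (Bool × Bool)]
    (S : SpecMap (redDataBar (d * p) A)) :
    CuspFamily S (cusp L) (Qpl L hℓN A hA) (fun l => gen (d * p) (idx d p l)) (nMat d p) where
  Q_inj := Qpl_injective L hℓN A hA
  mem := fun l => gen_mem_Rw1 (d * p) A _
  red_ne := fun l => red_gen_ne_zero A _ _
  poles := fun l P hP => eq_cusp_of_ord_gen_neg L l P hP
  ord_c := fun i l => ord_cusp_gen L i l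
  ord_Q := fun i l => ord_Qpl_gen L hℓN A hA i l _
  pos := fun i l => nMat_pos L i l
  dominant := fun i => by
    obtain ⟨l, hl⟩ := nMat_dominant L hdom i
    refine ⟨l, ?_⟩
    convert hl using 3

end Red

end Fermat.Agent.GZ.Mod.Inst.LevelDP
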