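/-
GATE-Z (S15) / [MOD-alpha], INSTANCE at the auxiliary levels, part 5 (helper16): **helper48's
`AlphaFamily.CuspFamily` at level `N = d p`** (`d ≠ p` primes, `1 + d + p < d p`), `A` over a prime
`ℓ' ∤ d p` (INCLUDING `ℓ' = 2, 3`: `d = 3` at `ℓ' = 2`, `d = 2` at `ℓ' = 3`), on the prelude's frame.

* `cuspFamily_bar_r`  : on J1's datum `redDataBar (d p) A`, with `Q i := S.r (cusp L i)`;
* **`cuspFamily_full`** : for EVERY `S : SpecMap (redDataFull (d p) A hle)` (e.g. helper48's
  `AlphaSpecInst.specMapModL h hle`, whose `r` is `placeReductionModL h`):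
  `CuspFamily S (cusp L) (fun i => S.r (cusp L i)) (fun l => gen (d p) (idx d p l)) (nMat d p)`.

Dictionary: `ι = κ = Bool × Bool`, `idxVal d p (a, b) = d^a p^b`, `cusp L i = W_i • ∞`
(`cusp L (false, false) = cuspInf (d p)`), `gen (d p) (idx d p l) = jdF (d p) (d^a p^b) _`
(`gen_ff = jF (d p)`), `nMat d p i l = idxVal d p (bx i l)`, `bx` = componentwise `xor`.
-/
import Mathlib
import Fermat.Agent.GZ.Mod.Inst.LevelDP.WFourRed
import Fermat.Agent.GJ.S37.BarToFull

set_option autoImplicit false
set_option linter.unusedSectionVars false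
set_option synthInstance.maxHeartbeats 400000
set_option maxHeartbeats 1000000

noncomputable section

open AlgebraicCurve ModularCurve IntermediateField

namespace Fermat.Agent.GZ.Mod.Inst.LevelDP

open Fermat.Agent.GR.W.RatRep Fermat.Agent.GK.AL Fermat.Agent.S24 Fermat.Agent.S28
  Fermat.Agent.S24_helper62 Fermat.Agent.GZ.UnitN Fermat.Agent.GJ.J1 Fermat.Agent.GJ.J1.Val
  Fermat.Agent.GZ.Mod.AlphaSpec Fermat.Agent.GZ.Mod.AlphaFamily
  Fermat.Agent.GJ.S37Bridge Fermat.Agent.GJ.S37BarToFull

local notation "Qb" => AlgebraicClosure ℚ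

section Full

variable {d p : ℕ} [NeZero (d * p)] (L : Lvl d p) {ℓ' : ℕ} [Fact ℓ'.Prime]
  (hℓN : ¬ ℓ' ∣ d * p) (A : ValuationSubring Qb) (hA : A.LiesOverPrime ℓ')

include hℓN hA

/-- the `CuspFamily` at level `d p` on J1's datum, with `Q i := S.r (cusp L i)`. -/
theorem cuspFamily_bar_r (hdom : 1 + d + p < d * p) [DecidableEq (Bool × Bool)]
    (S : SpecMap (redDataBar (d * p) A)) :
    CuspFamily S (cusp L) (fun i => S.r (cusp L i)) (fun l => gen (d * p) (idx d p l))
      (nMat d p) := by
  have C := cuspFamily_bar L hℓN A hA hdom S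
  have := Fermat.Agent.RR.ModularBar.hasPrincipalDivisors (d * p)
  have hQ : Qpl L hℓN A hA = fun i => S.r (cusp L i) := funext fun i => (C.r_c i).symm
  rw [← hQ]
  exact C

/-- **helper48's `CuspFamily` at the auxiliary level `d p` on the prelude's frame**
`redDataFull (d p) A hle` (the datum of `placeReductionModL`), for EVERY place map with the fibre
formula; `ℓ' = 2, 3` allowed. -/
theorem cuspFamily_full (hdom : 1 + d + p < d * p) [DecidableEq (Bool × Bool)]
    (S : SpecMap (redDataFull (d * p) A (Res.FresBar_le_fullC (d * p) A hℓN hA))) :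
    CuspFamily S (cusp L) (fun i => S.r (cusp L i)) (fun l => gen (d * p) (idx d p l))
      (nMat d p) := by
  have key := transfer (N := d * p) (A := A)
    (fun E R => ∀ S : SpecMap R,
      CuspFamily S (cusp L) (fun i => S.r (cusp L i)) (fun l => gen (d * p) (idx d p l))
        (nMat d p))
    (Res.FresBar_eq_fullC (d * p) A hℓN hA) (Res.FresBar_le_fullC (d * p) A hℓN hA)
    (fun S => cuspFamily_bar_r L hℓN A hA hdom S)
  exact key S

end Full

end Fermat.Agent.GZ.Mod.Inst.LevelDP
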