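/-
GATE-Z (S15) / [MOD-alpha], INSTANCE at the auxiliary levels, part 6 (helper16): **dictionary** for
the consumers of `cuspFamily_full` (helper48 `AlphaPull`, helper24 integrator).

* the four functions: `gen_ff = jF (d p)`, `gen_tf = jdF (d p) d`, `gen_ft = jdF (d p) p`,
  `gen_tt = jdF (d p) (d p)`; as pull-backs from level `p`:
  `levelIncl_jF_eq : levelIncl _ (jF p) = gen (d p) (idx d p (false, false))`,
  `levelIncl_jdF_eq : levelIncl _ (jdF p p dvd_rfl) = gen (d p) (idx d p (false, true))`;
* the four cusps: `cusp_ff = cuspInf (d p)`, `cusp_tf = cuspZero (W_d)`, `cusp_ft = cuspZero (W_p)`;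
* the matrix: `nMat_ff : n i (j) = d^{i.1} p^{i.2}`, `nMat_ft : n i (j_p) = d^{i.1} p^{1 - i.2}`
  (so the cusps over `0_p` are the `i = (a, true)`: `n i j = p · n i j_p`; over `∞_p` the
  `i = (a, false)`: `n i j_p = p · n i j`);
* the levels of variant B: `lvl_three`, `lvl_two`, `hdom_three`, `hdom_two`.
-/
import Mathlib
import Fermat.Agent.GZ.Mod.Inst.LevelDP.Full
import Fermat.Agent.GJ.S37.HeckePullback

set_option autoImplicit false
set_option linter.unusedSectionVars false

noncomputable section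

open AlgebraicCurve ModularCurve IntermediateField

namespace Fermat.Agent.GZ.Mod.Inst.LevelDP

open Fermat.Agent.GR.W.RatRep Fermat.Agent.GK.AL Fermat.Agent.S24 Fermat.Agent.S28
  Fermat.Agent.S24_helper62 Fermat.Agent.GZ.UnitN
open Fermat.Agent.GJ.S37HeckePullback (levelIncl coe_levelIncl levelIncl_jF)

local notation "Qb" => AlgebraicClosure ℚ

section Dict

variable {d p : ℕ} [NeZero (d * p)] [NeZero d] [NeZero p] (L : Lvl d p)

omit [NeZero (d * p)] [NeZero d] [NeZero p] in
theorem jdF_congr {N : ℕ} [NeZero N] {e e' : ℕ} [NeZero e] [NeZero e'] (h : e = e') (he : e ∣ N)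
    (he' : e' ∣ N) : jdF N e he = jdF N e' he' := by
  subst h
  rfl

theorem gen_ff : gen (d * p) (idx d p (false, false)) = jF (d * p) := gen_zero

theorem gen_tf : gen (d * p) (idx d p (true, false)) = jdF (d * p) d (dvd_mul_right d p) := by
  rw [gen_eq_jdF]
  exact jdF_congr (by simp [idxVal]) _ _

theorem gen_ft : gen (d * p) (idx d p (false, true)) = jdF (d * p) p (dvd_mul_left p d) := by
  rw [gen_eq_jdF]
  exact jdF_congr (by simp [idxVal]) _ _

theorem gen_tt : gen (d * p) (idx d p (true, true)) = jdF (d * p) (d * p) dvd_rfl := by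
  rw [gen_eq_jdF]
  exact jdF_congr (by simp [idxVal]) _ _

/-- `j` of level `p`, pulled back to level `d p` -/
theorem levelIncl_jF_eq :
    levelIncl (dvd_mul_left p d) (jF p) = gen (d * p) (idx d p (false, false)) := by
  rw [levelIncl_jF, gen_ff]

/-- `j_p` of level `p`, pulled back to level `d p` -/
theorem levelIncl_jdF_eq :
    levelIncl (dvd_mul_left p d) (jdF p p dvd_rfl) = gen (d * p) (idx d p (false, true)) := by
  rw [gen_ft]
  exact Subtype.ext rfl

theorem cusp_ff : cusp L (false, false) = cuspInf (d * p) := by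
  unfold cusp
  rw [W_zero, one_smul]

theorem cusp_tf : cusp L (true, false) = cuspZero L.exactDvd_d := by
  unfold cusp cuspZero W
  simp

theorem cusp_ft : cusp L (false, true) = cuspZero L.exactDvd_p := by
  unfold cusp cuspZero W
  simp

omit [NeZero (d * p)] [NeZero d] [NeZero p] in
theorem nMat_ff (i : Bool × Bool) : nMat d p i (false, false) = idxVal d p i := by
  unfold nMat
  rw [bx_zero]

omit [NeZero (d * p)] [NeZero d] [NeZero p] in
theorem nMat_ft (i : Bool × Bool) : nMat d p i (false, true) = idxVal d p (i.1, !i.2) := by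
  rcases i with ⟨a, b⟩
  cases a <;> cases b <;> rfl

omit [NeZero (d * p)] [NeZero d] [NeZero p] in
/-- over `0_p`: `n i j = p · n i j_p` -/
theorem nMat_over_zero (a : Bool) :
    nMat d p (a, true) (false, false) = p * nMat d p (a, true) (false, true) := by
  rw [nMat_ff, nMat_ft]
  cases a <;> simp [idxVal, mul_comm]

omit [NeZero (d * p)] [NeZero d] [NeZero p] in
/-- over `∞_p`: `n i j_p = p · n i j` -/
theorem nMat_over_inf (a : Bool) :
    nMat d p (a, false) (false, true) = p * nMat d p (a, false) (false, false) := by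
  rw [nMat_ff, nMat_ft]
  cases a <;> simp [idxVal, mul_comm]

end Dict

/-! ### the levels of variant B -/

theorem lvl_three {p : ℕ} (hp : p.Prime) (hp3 : p ≠ 3) : Lvl 3 p :=
  ⟨Nat.prime_three, hp, fun h => hp3 h.symm⟩

theorem lvl_two {p : ℕ} (hp : p.Prime) (hp2 : p ≠ 2) : Lvl 2 p :=
  ⟨Nat.prime_two, hp, fun h => hp2 h.symm⟩

theorem hdom_three {p : ℕ} (hp : 3 ≤ p) : 1 + 3 + p < 3 * p := by omega

theorem hdom_two {p : ℕ} (hp : 4 ≤ p) : 1 + 2 + p < 2 * p := by omega

end Fermat.Agent.GZ.Mod.Inst.LevelDP
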