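/-
GATE-Z (S15) / [MOD-alpha], INSTANCE at the auxiliary levels, part 7 (helper16): **the consumer
shape** — `cuspFamily_full` on helper48's `AlphaSpecInst.specMapModL h hle` (whose `r` is the
prelude's `placeReductionModL h`), and the two levels of variant B (`ModuliB` clauses at `2`, `3`).

* `cuspFamily_modL`   : level `d p`, `A | ℓ' ∤ d p`, any `h : ReductionInputsModL A (d p)`;
* `cuspFamily_three`  : level `3 p` (`p ≥ 5` prime), `A | 2`;
* `cuspFamily_two`    : level `2 p` (`p ≥ 5` prime), `A | 3`.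
-/
import Mathlib
import Fermat.Agent.GZ.Mod.Inst.LevelDP.Dict
import Fermat.Agent.GZ.Mod.AlphaSpecInst

set_option autoImplicit false
set_option linter.unusedSectionVars false
set_option synthInstance.maxHeartbeats 400000
set_option maxHeartbeats 1000000

noncomputable section

open AlgebraicCurve ModularCurve IntermediateField

namespace Fermat.Agent.GZ.Mod.Inst.LevelDP

open Fermat.Agent.GK.AL Fermat.Agent.S24 Fermat.Agent.GJ.J1 Fermat.Agent.GJ.J1.Val
  Fermat.Agent.GZ.Mod.AlphaSpec Fermat.Agent.GZ.Mod.AlphaFamily Fermat.Agent.GZ.Mod.AlphaSpecInst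
  Fermat.Agent.GJ.S37Bridge

local notation "Qb" => AlgebraicClosure ℚ

/-- **`CuspFamily` at level `d p` for the prelude's place reduction map.** -/
theorem cuspFamily_modL {d p : ℕ} [NeZero (d * p)] (L : Lvl d p) (hdom : 1 + d + p < d * p)
    {ℓ' : ℕ} [Fact ℓ'.Prime] (hℓN : ¬ ℓ' ∣ d * p) {A : ValuationSubring Qb}
    (hA : A.LiesOverPrime ℓ') (h : ReductionInputsModL A (d * p)) [DecidableEq (Bool × Bool)] :
    CuspFamily (specMapModL h (hle_of_not_dvd hℓN hA)) (cusp L)
      (fun i => placeReductionModL h (cusp L i)) (fun l => gen (d * p) (idx d p l)) (nMat d p) :=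
  cuspFamily_full L hℓN A hA hdom (specMapModL h (hle_of_not_dvd hℓN hA))

theorem not_two_dvd_three_mul {p : ℕ} (hp : p.Prime) (hp2 : p ≠ 2) : ¬ 2 ∣ 3 * p := by
  intro h
  rcases (Nat.Prime.dvd_mul Nat.prime_two).mp h with h | h
  · omega
  · exact hp2 ((Nat.prime_dvd_prime_iff_eq Nat.prime_two hp).mp h).symm

theorem not_three_dvd_two_mul {p : ℕ} (hp : p.Prime) (hp3 : p ≠ 3) : ¬ 3 ∣ 2 * p := by
  intro h
  rcases (Nat.Prime.dvd_mul Nat.prime_three).mp h with h | h
  · omega
  · exact hp3 ((Nat.prime_dvd_prime_iff_eq Nat.prime_three hp).mp h).symm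

/-- **level `3 p`, `A | 2`** (the `2`-clause of `ModuliB`). -/
theorem cuspFamily_three {p : ℕ} [NeZero (3 * p)] (hp : p.Prime) (hp5 : 5 ≤ p)
    {A : ValuationSubring Qb} (hA : A.LiesOverPrime 2) (h : ReductionInputsModL A (3 * p))
    [DecidableEq (Bool × Bool)] :
    haveI : Fact (Nat.Prime 2) := ⟨Nat.prime_two⟩
    CuspFamily (specMapModL h (hle_of_not_dvd (not_two_dvd_three_mul hp (by omega)) hA))
      (cusp (lvl_three hp (by omega))) (fun i => placeReductionModL h (cusp (lvl_three hp (by omega)) i))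
      (fun l => gen (3 * p) (idx 3 p l)) (nMat 3 p) :=
  haveI : Fact (Nat.Prime 2) := ⟨Nat.prime_two⟩
  cuspFamily_modL (lvl_three hp (by omega)) (hdom_three (by omega))
    (not_two_dvd_three_mul hp (by omega)) hA h

/-- **level `2 p`, `A | 3`** (the `3`-clause of `ModuliB`). -/
theorem cuspFamily_two {p : ℕ} [NeZero (2 * p)] (hp : p.Prime) (hp5 : 5 ≤ p)
    {A : ValuationSubring Qb} (hA : A.LiesOverPrime 3) (h : ReductionInputsModL A (2 * p))
    [DecidableEq (Bool × Bool)] :
    haveI : Fact (Nat.Prime 3) := ⟨Nat.prime_three⟩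
    CuspFamily (specMapModL h (hle_of_not_dvd (not_three_dvd_two_mul hp (by omega)) hA))
      (cusp (lvl_two hp (by omega))) (fun i => placeReductionModL h (cusp (lvl_two hp (by omega)) i))
      (fun l => gen (2 * p) (idx 2 p l)) (nMat 2 p) :=
  haveI : Fact (Nat.Prime 3) := ⟨Nat.prime_three⟩
  cuspFamily_modL (lvl_two hp (by omega)) (hdom_two (by omega))
    (not_three_dvd_two_mul hp (by omega)) hA h

end Fermat.Agent.GZ.Mod.Inst.LevelDP
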