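/-
GATE-Z (S15) / [MOD-alpha], INSTANCE at the auxiliary levels, part 8 (helper16): **helper80's
`PullWire.AuxFamily p d ℓ'` and helper24's `Integ.PullHyp`**, unconditionally.

* `auxFamily`     : `AuxFamily p d ℓ'` for `d ≠ p` primes, `1 + d + p < d p`, `ℓ'` prime, `ℓ' ∤ d p`;
* **`pullHyp_three`** : `Integ.PullHyp p (cuspZero hp) 3 2` (`p ≥ 5` prime);
* **`pullHyp_two`**   : `Integ.PullHyp p (cuspZero hp) 2 3` (`p ≥ 5` prime)
  — the two binders `hP2`, `hP3` of helper24's `s15B_of_beta`.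
-/
import Mathlib
import Fermat.Agent.GZ.Mod.PullWire
import Fermat.Agent.GZ.Mod.Inst.LevelDP.Plug

set_option autoImplicit false
set_option linter.unusedSectionVars false
set_option synthInstance.maxHeartbeats 400000
set_option maxHeartbeats 1000000

noncomputable section

open AlgebraicCurve ModularCurve

namespace Fermat.Agent.GZ.Mod.Inst.LevelDP

open Fermat.Agent.GK.AL Fermat.Agent.S24 Fermat.Agent.GZ.Unit Fermat.Agent.GZ.Mod.PullWire
  Fermat.Agent.GZ.Mod.AlphaSpec Fermat.Agent.GZ.Mod.AlphaFamily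

local notation "Qb" => AlgebraicClosure ℚ

/-- **helper80's `AuxFamily` at level `d p`.** -/
theorem auxFamily {d p : ℕ} [NeZero p] [NeZero (d * p)] (L : Lvl d p)
    (hdom : 1 + d + p < d * p) {ℓ' : ℕ} (hℓ' : ℓ'.Prime) (hℓN : ¬ ℓ' ∣ d * p) :
    AuxFamily p d ℓ' := by
  intro A hA hle S
  have : Fact ℓ'.Prime := ⟨hℓ'⟩
  have : NeZero d := ⟨L.hd.ne_zero⟩
  refine ⟨Bool × Bool, Bool × Bool, inferInstance, inferInstance, cusp L,
    fun i => S.r (cusp L i), fun l => gen (d * p) (idx d p l), nMat d p, (false, false),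
    (false, true), cuspFamily_full L hℓN A hA hdom S, gen_ff, gen_ft, ?_⟩
  rintro ⟨a, b⟩
  cases b
  · exact Or.inr (nMat_over_inf a)
  · exact Or.inl (nMat_over_zero a)

/-- **the `2`-clause of variant B**: level `3 p`, `ℓ' = 2`. -/
theorem pullHyp_three {p : ℕ} [NeZero p] [NeZero (3 * p)] (hp : p.Prime) (hp5 : 5 ≤ p) :
    Fermat.Agent.GZ.Mod.Integ.PullHyp p (cuspZero hp) 3 2 :=
  pullHyp_of_auxFamily hp Nat.prime_two (not_two_dvd_three_mul hp (by omega))
    (auxFamily (lvl_three hp (by omega)) (hdom_three (by omega)) Nat.prime_two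
      (not_two_dvd_three_mul hp (by omega)))

/-- **the `3`-clause of variant B**: level `2 p`, `ℓ' = 3`. -/
theorem pullHyp_two {p : ℕ} [NeZero p] [NeZero (2 * p)] (hp : p.Prime) (hp5 : 5 ≤ p) :
    Fermat.Agent.GZ.Mod.Integ.PullHyp p (cuspZero hp) 2 3 :=
  pullHyp_of_auxFamily hp Nat.prime_three (not_three_dvd_two_mul hp (by omega))
    (auxFamily (lvl_two hp (by omega)) (hdom_two (by omega)) Nat.prime_three
      (not_three_dvd_two_mul hp (by omega)))

end Fermat.Agent.GZ.Mod.Inst.LevelDP
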