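/-
GATE-Z (S15) / [MOD-alpha], INSTANCE at the auxiliary levels, part 9 (helper16): **helper24's
`Integ.FamHyp p d ℓ'`** (`GZ/Mod/IntegratorPlugB2.lean`), unconditionally, and the frozen statement
S15 (variant B) from `BetaOut` and `FStmt` ONLY.

* `famHyp`        : `Integ.FamHyp p d ℓ'` for `d ≠ p` primes, `1 + d + p < d p`, `ℓ' ∤ d p` prime;
* `famHyp_three`  : `Integ.FamHyp p 3 2`, `famHyp_two : Integ.FamHyp p 2 3` (`p ≥ 5` prime);
* **`s15B_of_beta_F`** : helper24's `s15B_of_beta_fam` with `hF2`, `hF3` discharged: the frozen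
  S15 from [MOD-beta] (`BetaOut p W Q`) and (F) (`FStmt`).
-/
import Mathlib
import Fermat.Agent.GZ.Mod.IntegratorPlugB2
import Fermat.Agent.GZ.Mod.Inst.LevelDP.Plug

set_option autoImplicit false
set_option linter.unusedSectionVars false
set_option synthInstance.maxHeartbeats 400000
set_option maxHeartbeats 1000000

noncomputable section

open AlgebraicCurve ModularCurve WeierstrassCurve
open scoped WeierstrassCurve.Affine

namespace Fermat.Agent.GZ.Mod.Inst.LevelDP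

open Fermat.Agent.GK.AL Fermat.Agent.S24 Fermat.Agent.GZ.Unit Fermat.Agent.GZ.Top
  Fermat.Agent.GZ.Mod Fermat.Agent.GZ.Mod.Integ Fermat.Agent.GZ.Mod.AlphaSpec
  Fermat.Agent.GZ.Mod.AlphaSpecInst Fermat.Agent.GZ.Mod.AlphaFamily

local notation "Qb" => AlgebraicClosure ℚ

/-- **helper24's `FamHyp` at level `d p`.** -/
theorem famHyp {d p : ℕ} [NeZero p] [NeZero (d * p)] (L : Lvl d p)
    (hdom : 1 + d + p < d * p) {ℓ' : ℕ} (hℓ' : ℓ'.Prime) (hℓN : ¬ ℓ' ∣ d * p) :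
    FamHyp p d ℓ' := by
  intro A hA h' hle'
  have : Fact ℓ'.Prime := ⟨hℓ'⟩
  have : NeZero d := ⟨L.hd.ne_zero⟩
  refine ⟨cusp L, fun i => (specMapModL h' hle').r (cusp L i),
    fun l => gen (d * p) (idx d p l), nMat d p,
    cuspFamily_full L hℓN A hA hdom (specMapModL h' hle'), levelIncl_jF_eq.symm,
    levelIncl_jdF_eq.symm, ?_⟩
  rintro ⟨a, b⟩
  cases b
  · exact Or.inr (nMat_over_inf a)
  · exact Or.inl (nMat_over_zero a)

theorem famHyp_three {p : ℕ} [NeZero p] [NeZero (3 * p)] (hp : p.Prime) (hp5 : 5 ≤ p) :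
    FamHyp p 3 2 :=
  famHyp (lvl_three hp (by omega)) (hdom_three (by omega)) Nat.prime_two
    (not_two_dvd_three_mul hp (by omega))

theorem famHyp_two {p : ℕ} [NeZero p] [NeZero (2 * p)] (hp : p.Prime) (hp5 : 5 ≤ p) :
    FamHyp p 2 3 :=
  famHyp (lvl_two hp (by omega)) (hdom_two (by omega)) Nat.prime_three
    (not_three_dvd_two_mul hp (by omega))

/-- **Frozen S15, variant B, from [MOD-beta] and (F)** — (UNIT), (MOD-alpha) at the levels `p`,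
`3p`, `2p`, (CUT), (DEG), (HRED) discharged. -/
theorem s15B_of_beta_F
    {p : ℕ} (hp : p.Prime) (hp' : p ∉ ({2, 3, 5, 7, 13} : Finset ℕ))
    (W : WeierstrassCurve ℤ) (hΔ : W.Δ ≠ 0)
    (Q : ((W.map (Int.castRingHom ℚ))⁄(AlgebraicClosure ℚ)).Point)
    (hQfix : ∀ σ : AlgebraicClosure ℚ ≃ₐ[ℚ] AlgebraicClosure ℚ, σ • Q = Q)
    (hQord : addOrderOf Q = p)
    (h2Δ : (2 : ℤ) ∣ W.Δ) (h2c₄ : ¬ (2 : ℤ) ∣ W.c₄)
    (h2 : ∀ A : ValuationSubring (AlgebraicClosure ℚ), A.LiesOverPrime 2 → ¬ W.InZeroComponentAt A Q)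
    (h3Δ : (3 : ℤ) ∣ W.Δ) (h3c₄ : ¬ (3 : ℤ) ∣ W.c₄)
    (h3 : ∀ A : ValuationSubring (AlgebraicClosure ℚ), A.LiesOverPrime 3 → ¬ W.InZeroComponentAt A Q)
    {ℓ : ℕ} (hℓ : ℓ.Prime) (hℓp : ℓ ≠ p) (hℓΔ : (ℓ : ℤ) ∣ W.Δ) (hℓc₄ : ¬ (ℓ : ℤ) ∣ W.c₄)
    (A : ValuationSubring (AlgebraicClosure ℚ)) (hA : A.LiesOverPrime ℓ)
    (hpNZ : NeZero p)
    (hβ : BetaOut p W Q)
    (hF : FStmt (Fermat.Agent.GZ.Unit.Hecke.cuspPkgFinal hp) ({2, 3, ℓ} : Finset ℕ)) :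
    ¬ W.InZeroComponentAt A Q := by
  have hp5 : 5 ≤ p := by
    have h2le := hp.two_le
    by_contra hlt
    have hlt' : p < 5 := by omega
    simp only [Finset.mem_insert, Finset.mem_singleton, not_or] at hp'
    interval_cases p <;> first | omega | exact absurd hp (by decide)
  exact s15B_of_beta_fam hp hp' W hΔ Q hQfix hQord h2Δ h2c₄ h2 h3Δ h3c₄ h3 hℓ hℓp hℓΔ hℓc₄ A hA
    hpNZ hβ (famHyp_three hp hp5) (famHyp_two hp hp5) hF

end Fermat.Agent.GZ.Mod.Inst.LevelDP
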